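import Mathlib.Analysis.Complex.Polynomial.Basic
import Mathlib.Data.ZMod.Units
import Mathlib.RingTheory.Polynomial.Cyclotomic.Eval
import Mathlib.RingTheory.Polynomial.Resultant.Basic
import Mathlib.RingTheory.RootsOfUnity.Complex
import Mathlib.Tactic

/-!
# Resultants of cyclotomic polynomials

The product over `d ∣ n` of the resultants of `Φ d` and `Φ m` is `Φ m' (1) ^ c`, with
`m' = m / gcd (n, m)` and `c = φ m / φ m'`; the resultants follow by induction over divisors.
-/

set_option autoImplicit false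

open Finset Polynomial

namespace FA.CyclotomicResultant

/-- `∏ (β - α)` over the primitive `d`th roots `β` and the primitive `m`th roots `α`. -/
noncomputable def pairProd (d m : ℕ) : ℂ :=
  ∏ β ∈ primitiveRoots d ℂ, (cyclotomic m ℂ).eval β

theorem cast_resultant (d m : ℕ) :
    ((resultant (cyclotomic d ℤ) (cyclotomic m ℤ) : ℤ) : ℂ) = pairProd d m := by
  rw [← eq_intCast (Int.castRingHom ℂ), ← resultant_map_map, map_cyclotomic, map_cyclotomic,
    natDegree_cyclotomic, natDegree_cyclotomic, ← natDegree_cyclotomic d ℂ,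
    resultant_eq_prod_eval _ _ _ (natDegree_cyclotomic m ℂ).le (IsAlgClosed.splits _),
    (cyclotomic.monic d ℂ).leadingCoeff, one_pow, one_mul, pairProd]
  rcases Nat.eq_zero_or_pos d with rfl | hd
  · simp
  · have : NeZero (d : ℂ) := ⟨Nat.cast_ne_zero.2 hd.ne'⟩
    rw [cyclotomic.roots_eq_primitiveRoots_val]
    rfl

theorem cyclotomic_eval_eq_prod (k : ℕ) [NeZero k] (x : ℂ) :
    (cyclotomic k ℂ).eval x = ∏ μ ∈ primitiveRoots k ℂ, (x - μ) := by
  rw [cyclotomic_eq_prod_X_sub_primitiveRoots (Complex.isPrimitiveRoot_exp k (NeZero.ne k)),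
    eval_prod]
  simp

theorem fibre_card {m M : ℕ} (hm : 0 < m) (hM : M ∣ m) {n : ℕ} {γ δ : ℂ}
    (hγ : γ ∈ primitiveRoots M ℂ) (hδ : δ ∈ primitiveRoots M ℂ) :
    #((primitiveRoots m ℂ).filter fun α => α ^ n = γ) ≤
      #((primitiveRoots m ℂ).filter fun α => α ^ n = δ) := by
  have hM0 : 0 < M := Nat.pos_of_dvd_of_pos hM hm
  rw [mem_primitiveRoots hM0] at hγ hδ
  have : NeZero M := ⟨hM0.ne'⟩
  obtain ⟨u, hu⟩ := hγ.isPrimitiveRoot_iff.1 hδ
  have : NeZero m := ⟨hm.ne'⟩
  obtain ⟨-, hucop, huγ⟩ := hu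
  obtain ⟨w, hw⟩ := ZMod.unitsMap_surjective hM (ZMod.unitOfCoprime u hucop)
  set t := (w : ZMod m).val
  have htu : t ≡ u [MOD M] := by
    rw [← ZMod.natCast_eq_natCast_iff]
    have := congrArg Units.val hw
    simp only [ZMod.unitsMap_def, Units.coe_map, MonoidHom.coe_coe, ZMod.castHom_apply,
      ZMod.coe_unitOfCoprime] at this
    rw [← this, ZMod.natCast_val]
  have ht : t.Coprime m := ZMod.val_coe_unit_coprime w
  refine card_le_card_of_injOn (fun α => α ^ t) (fun α hα => ?_) ?_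
  · obtain ⟨h1, h2⟩ := mem_filter.1 hα
    refine mem_filter.2 ⟨(mem_primitiveRoots hm).2 ?_, ?_⟩
    · exact ((mem_primitiveRoots hm).1 h1).pow_of_coprime t ht
    · rw [← pow_mul, mul_comm, pow_mul, h2, ← huγ]
      rw [pow_eq_pow_mod t hγ.pow_eq_one, htu, ← pow_eq_pow_mod u hγ.pow_eq_one]
  · intro α hα β hβ h
    have h1 := ((mem_primitiveRoots hm).1 (mem_filter.1 hα).1).pow_eq_one
    have h2 := ((mem_primitiveRoots hm).1 (mem_filter.1 hβ).1).pow_eq_one
    have hb0 : β ≠ 0 := ((mem_primitiveRoots hm).1 (mem_filter.1 hβ).1).ne_zero hm.ne'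
    have h3 := (pow_gcd_eq_one (a := α / β) (m := t) (n := m)).2
      ⟨by rw [div_pow]; exact div_eq_one_iff_eq (pow_ne_zero t hb0) |>.2 h,
        by rw [div_pow, h1, h2, div_one]⟩
    rwa [ht.gcd_eq_one, pow_one, div_eq_one_iff_eq hb0] at h3

theorem exists_exponent {m n M : ℕ} (hm : 0 < m) (hM : M ∣ m)
    (hpow : ∀ α ∈ primitiveRoots m ℂ, α ^ n ∈ primitiveRoots M ℂ) :
    ∃ c, c * M.totient = m.totient ∧
      ∏ α ∈ primitiveRoots m ℂ, (1 - α ^ n) = ((cyclotomic M ℂ).eval 1) ^ c := by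
  have hM0 : 0 < M := Nat.pos_of_dvd_of_pos hM hm
  obtain ⟨γ₀, hγ₀⟩ : (primitiveRoots M ℂ).Nonempty :=
    ⟨_, (mem_primitiveRoots hM0).2 (Complex.isPrimitiveRoot_exp M hM0.ne')⟩
  refine ⟨#((primitiveRoots m ℂ).filter fun α => α ^ n = γ₀), ?_, ?_⟩
  · rw [← Complex.card_primitiveRoots m, card_eq_sum_card_fiberwise hpow,
      sum_congr rfl fun γ hγ => le_antisymm (fibre_card hm hM hγ hγ₀)
        (fibre_card hm hM hγ₀ hγ), sum_const, Complex.card_primitiveRoots, smul_eq_mul,
      mul_comm]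
  · have : NeZero M := ⟨hM0.ne'⟩
    rw [cyclotomic_eval_eq_prod, ← prod_pow, ← prod_fiberwise_of_maps_to hpow]
    refine prod_congr rfl fun γ hγ => ?_
    rw [prod_congr rfl fun α hα => by rw [(mem_filter.1 hα).2], prod_const,
      le_antisymm (fibre_card hm hM hγ hγ₀) (fibre_card hm hM hγ₀ hγ)]

theorem prod_pairProd {m n : ℕ} (hn : 0 < n) (hnm : n < m) :
    ∃ c, c * (m / n.gcd m).totient = m.totient ∧
      ∏ d ∈ n.divisors, pairProd d m = ((cyclotomic (m / n.gcd m) ℂ).eval 1) ^ c := by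
  have hm : 0 < m := by omega
  have : NeZero m := ⟨hm.ne'⟩
  have hg : 0 < n.gcd m := Nat.gcd_pos_of_pos_left _ hn
  obtain ⟨c, hc, hprod⟩ := exists_exponent (n := n) hm (Nat.div_dvd_of_dvd (Nat.gcd_dvd_right n m))
    (fun α hα => by
      have hα' := (mem_primitiveRoots hm).1 hα
      have h1 := hα'.pow hm (Nat.mul_div_cancel' (Nat.gcd_dvd_right n m)).symm
      have h2 : (n / n.gcd m).Coprime (m / n.gcd m) := Nat.coprime_div_gcd_div_gcd hg
      rw [mem_primitiveRoots (Nat.div_pos (Nat.gcd_le_right n hm) hg)]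
      have := h1.pow_of_coprime _ h2
      rwa [← pow_mul, Nat.mul_div_cancel' (Nat.gcd_dvd_left n m)] at this)
  refine ⟨c, hc, ?_⟩
  rw [← hprod]
  have hsign : ((-1 : ℂ) ^ (n + 1)) ^ m.totient = 1 := by
    rcases Nat.lt_or_ge 2 m with h | h
    · rw [← pow_mul]
      exact ((Nat.totient_even h).mul_left _).neg_one_pow
    · obtain ⟨rfl, rfl⟩ : m = 2 ∧ n = 1 := by omega
      norm_num
  calc ∏ d ∈ n.divisors, pairProd d m
      = ∏ α ∈ primitiveRoots m ℂ, ∏ d ∈ n.divisors, ∏ β ∈ primitiveRoots d ℂ, (β - α) := by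
        rw [prod_comm]
        refine prod_congr rfl fun d _ => ?_
        rw [pairProd, prod_comm]
        exact prod_congr rfl fun β _ => cyclotomic_eval_eq_prod m β
    _ = ∏ α ∈ primitiveRoots m ℂ, ((-1) ^ (n + 1) * (1 - α ^ n)) := by
        refine prod_congr rfl fun α _ => ?_
        have he : ∀ d ∈ n.divisors, ∏ β ∈ primitiveRoots d ℂ, (β - α) =
            (-1) ^ d.totient * (cyclotomic d ℂ).eval α := by
          intro d hd
          have : NeZero d := ⟨(Nat.pos_of_mem_divisors hd).ne'⟩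
          rw [cyclotomic_eval_eq_prod, ← Complex.card_primitiveRoots d, ← prod_const,
            ← prod_mul_distrib]
          exact prod_congr rfl fun β _ => by ring
        rw [prod_congr rfl he, prod_mul_distrib, prod_pow_eq_pow_sum, Nat.sum_totient,
          ← eval_prod, prod_cyclotomic_eq_X_pow_sub_one hn]
        simp only [eval_sub, eval_pow, eval_X, eval_one]
        ring
    _ = _ := by
        rw [prod_mul_distrib, prod_const, Complex.card_primitiveRoots, hsign, one_mul]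

/-- The value of the resultant. -/
noncomputable def target (d m : ℕ) : ℂ :=
  if d ∣ m then ((cyclotomic (m / d) ℂ).eval 1) ^ d.totient else 1

theorem eval_one_eq_one_of_dvd {a b : ℕ} (hab : a ∣ b)
    (h : ∀ {p : ℕ}, p.Prime → ∀ k : ℕ, p ^ k ≠ a) :
    (cyclotomic b ℂ).eval 1 = 1 := by
  refine eval_one_cyclotomic_not_prime_pow fun {p} hp k hk => ?_
  obtain ⟨j, -, rfl⟩ := (Nat.dvd_prime_pow hp).1 (hk ▸ hab)
  exact h hp j rfl

theorem prod_target {m n c : ℕ} (hn : 0 < n) (hnm : n < m)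
    (hc : c * (m / n.gcd m).totient = m.totient) :
    ∏ d ∈ n.divisors, target d m = ((cyclotomic (m / n.gcd m) ℂ).eval 1) ^ c := by
  set g := n.gcd m with hg
  have hgpos : 0 < g := Nat.gcd_pos_of_pos_left _ hn
  have hfilter : ∀ d ∈ n.divisors, d ∣ m → d ∈ g.divisors := fun d hd hdm =>
    Nat.mem_divisors.2 ⟨Nat.dvd_gcd (Nat.dvd_of_mem_divisors hd) hdm, hgpos.ne'⟩
  have hsub : ∏ d ∈ n.divisors, target d m =
      ∏ d ∈ g.divisors, ((cyclotomic (m / d) ℂ).eval 1) ^ d.totient := by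
    symm
    refine (prod_congr rfl fun d hd => ?_).trans (prod_subset
      (Nat.divisors_subset_of_dvd hn.ne' (Nat.gcd_dvd_left n m)) fun d hd hd' => ?_)
    · rw [target, if_pos ((Nat.dvd_of_mem_divisors hd).trans (Nat.gcd_dvd_right n m))]
    · rw [target, if_neg fun h => hd' (hfilter d hd h)]
  rw [hsub]
  obtain ⟨M, hM⟩ := Nat.gcd_dvd_right n m
  rw [← hg] at hM
  have hMg : m / g = M := by rw [hM, Nat.mul_div_cancel_left _ hgpos]
  rw [hMg] at hc ⊢
  have hM2 : 1 < M := by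
    by_contra h
    have := Nat.gcd_le_left m hn
    interval_cases M <;> omega
  by_cases hP : ∀ {p : ℕ}, p.Prime → ∀ k : ℕ, p ^ k ≠ M
  · rw [eval_one_cyclotomic_not_prime_pow hP, one_pow]
    refine prod_eq_one fun d hd => ?_
    obtain ⟨e, he⟩ := Nat.dvd_of_mem_divisors hd
    rw [eval_one_eq_one_of_dvd (a := M) ?_ hP, one_pow]
    rw [hM, he, mul_assoc, Nat.mul_div_cancel_left _ (Nat.pos_of_mem_divisors hd)]
    exact dvd_mul_left M e
  simp only [not_forall, not_not] at hP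
  obtain ⟨p, hp, a, rfl⟩ := hP
  have := Fact.mk hp
  obtain ⟨a, rfl⟩ : ∃ a', a = a' + 1 := ⟨a - 1, by
    rcases a with _ | a
    · simp at hM2
    · rfl⟩
  obtain ⟨b, g', hpg, hgb⟩ := Nat.exists_eq_pow_mul_and_not_dvd hgpos.ne' p hp.ne_one
  have hcop : ∀ j, (p ^ j).Coprime g' := fun j => (hp.coprime_iff_not_dvd.2 hpg).pow_left j
  have hS : (range (b + 1)).image (fun j => p ^ j * g') ⊆ g.divisors := fun d hd => by
    obtain ⟨j, hj, rfl⟩ := mem_image.1 hd
    exact Nat.mem_divisors.2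
      ⟨hgb ▸ mul_dvd_mul_right (pow_dvd_pow p (Nat.lt_succ_iff.1 (mem_range.1 hj))) g', hgpos.ne'⟩
  rw [← prod_subset hS fun d hd hd' => ?_]
  · rw [prod_image fun i _ j _ h => Nat.pow_right_injective hp.two_le
      (Nat.eq_of_mul_eq_mul_right (Nat.pos_of_ne_zero fun h0 => by
        rw [h0, mul_zero] at hgb
        omega) h)]
    have hval : ∀ j ∈ range (b + 1),
        ((cyclotomic (m / (p ^ j * g')) ℂ).eval 1) ^ (p ^ j * g').totient =
          (p : ℂ) ^ ((p ^ j).totient * g'.totient) := by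
      intro j hj
      obtain ⟨i, rfl⟩ := Nat.exists_eq_add_of_le (Nat.lt_succ_iff.1 (mem_range.1 hj))
      have hmd : m / (p ^ j * g') = p ^ (i + a + 1) := by
        rw [hM, hgb, show p ^ (j + i) * g' * p ^ (a + 1) = p ^ j * g' * p ^ (i + a + 1) by ring,
          Nat.mul_div_cancel_left]
        exact Nat.pos_of_ne_zero fun h0 => by
          rw [hgb, pow_add, mul_right_comm, h0, zero_mul] at hgpos
          omega
      rw [hmd, eval_one_cyclotomic_prime_pow, Nat.totient_mul (hcop j)]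
    rw [prod_congr rfl hval, prod_pow_eq_pow_sum, eval_one_cyclotomic_prime_pow, ← sum_mul]
    congr 1
    have hpsum : ∑ j ∈ range (b + 1), (p ^ j).totient = p ^ b := by
      have := Nat.sum_totient (p ^ b)
      rwa [Nat.divisors_prime_pow hp, sum_map] at this
    rw [hpsum]
    refine Nat.eq_of_mul_eq_mul_right (Nat.totient_pos.2 (pow_pos hp.pos (a + 1))) ?_
    rw [hc, hM, hgb, mul_right_comm (p ^ b) g', ← pow_add, Nat.totient_mul (hcop _),
      Nat.totient_prime_pow_succ hp, ← add_assoc, Nat.totient_prime_pow_succ hp, pow_add]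
    ring
  · obtain ⟨e, he⟩ := Nat.dvd_of_mem_divisors hd
    by_cases hne : ∃ q, q.Prime ∧ ∃ k, q ^ k = e * p ^ (a + 1)
    · obtain ⟨q, hq, k, hk⟩ := hne
      have hqp : p = q := (Nat.prime_dvd_prime_iff_eq hp hq).1
        (hp.dvd_of_dvd_pow (hk ▸ (dvd_pow_self p a.succ_ne_zero).mul_left e))
      obtain ⟨i, -, rfl⟩ := (Nat.dvd_prime_pow hq).1 (hk ▸ dvd_mul_right e (p ^ (a + 1)))
      subst hqp
      refine absurd (mem_image.2 ?_) hd'
      have hi : i ≤ b := by
        have : p ^ i ∣ p ^ b := (hcop i).dvd_of_dvd_mul_right (hgb ▸ he ▸ dvd_mul_left (p ^ i) d)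
        exact (Nat.pow_dvd_pow_iff_le_right hp.one_lt).1 this
      refine ⟨b - i, mem_range.2 (by omega), Nat.eq_of_mul_eq_mul_right (pow_pos hp.pos i) ?_⟩
      rw [← he, hgb, mul_right_comm, ← pow_add, Nat.sub_add_cancel hi]
    · rw [eval_one_cyclotomic_not_prime_pow fun {q} hq k h => hne ⟨q, hq, k, ?_⟩, one_pow]
      rw [h, hM, he, mul_assoc, Nat.mul_div_cancel_left _ (Nat.pos_of_mem_divisors hd)]

theorem pairProd_eq_target {m : ℕ} : ∀ n : ℕ, 0 < n → n < m → pairProd n m = target n m := by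
  intro n
  induction n using Nat.strong_induction_on with
  | _ n ih =>
    intro hn hnm
    obtain ⟨c, hc, hprod⟩ := prod_pairProd hn hnm
    rw [← prod_target hn hnm hc] at hprod
    have hrest : ∀ d ∈ n.divisors.erase n, pairProd d m = target d m := fun d hd => by
      obtain ⟨hne, hd'⟩ := mem_erase.1 hd
      have := Nat.divisor_le hd'
      exact ih d (by omega) (Nat.pos_of_mem_divisors hd') (by omega)
    rw [← mul_prod_erase _ _ (Nat.mem_divisors_self n hn.ne'),
      ← mul_prod_erase _ _ (Nat.mem_divisors_self n hn.ne'), prod_congr rfl hrest] at hprod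
    refine mul_right_cancel₀ (prod_ne_zero_iff.2 fun d hd => ?_) hprod
    obtain ⟨hne, hd'⟩ := mem_erase.1 hd
    rw [target]
    split_ifs with hdvd
    · refine pow_ne_zero _ fun h0 => ?_
      have hd0 := Nat.pos_of_mem_divisors hd'
      obtain ⟨e, rfl⟩ := hdvd
      rw [Nat.mul_div_cancel_left _ hd0] at h0
      have he0 : 0 < e := Nat.pos_of_ne_zero fun h => by simp [h] at hnm
      have : NeZero (e : ℂ) := ⟨Nat.cast_ne_zero.2 he0.ne'⟩
      have h1 : e = 1 :=
        ((isRoot_cyclotomic_iff (R := ℂ) (n := e) (μ := 1)).1 h0).unique IsPrimitiveRoot.one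
      have := Nat.divisor_le hd'
      rw [h1, mul_one] at hnm
      omega
    · exact one_ne_zero

theorem resultant_eq {m n p k : ℕ} (hp : p.Prime) (hk : 0 < k) (hn : 0 < n)
    (hm : m = n * p ^ k) :
    resultant (cyclotomic n ℤ) (cyclotomic m ℤ) = (p : ℤ) ^ n.totient := by
  have hnm : n < m := hm ▸ lt_mul_of_one_lt_right hn (Nat.one_lt_pow hk.ne' hp.one_lt)
  apply Int.cast_injective (α := ℂ)
  rw [cast_resultant, pairProd_eq_target n hn hnm, target, if_pos (hm ▸ dvd_mul_right n _), hm,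
    Nat.mul_div_cancel_left _ hn]
  have := Fact.mk hp
  obtain ⟨i, rfl⟩ : ∃ i, k = i + 1 := ⟨k - 1, by omega⟩
  rw [eval_one_cyclotomic_prime_pow]
  push_cast
  ring

theorem resultant_eq_one {m n : ℕ} (hn : 0 < n) (hnm : n < m)
    (h : ∀ p k : ℕ, p.Prime → m ≠ n * p ^ k) :
    resultant (cyclotomic n ℤ) (cyclotomic m ℤ) = 1 := by
  apply Int.cast_injective (α := ℂ)
  rw [cast_resultant, pairProd_eq_target n hn hnm, target, Int.cast_one]
  split_ifs with hd
  · obtain ⟨e, rfl⟩ := hd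
    rw [Nat.mul_div_cancel_left _ hn,
      eval_one_cyclotomic_not_prime_pow fun {p} hp k hk => h p k hp (by rw [hk]), one_pow]
  · rfl

end FA.CyclotomicResultant
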