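import Mathlib.Combinatorics.Enumerative.Bell
import Mathlib.FieldTheory.Finite.Basic
import Mathlib.Tactic

/-!
# Touchard's congruence

The functional `X ^ n ↦ B n` turns multiplication by `X (X - 1) ⋯ (X - k + 1)` into the shift by
`k`, and modulo `p` that product is `X ^ p - X` for `k = p`.
-/

set_option autoImplicit false

open Finset Polynomial

namespace FA.Touchard

variable {R : Type*} [CommRing R]

/-- The linear functional `X ^ n ↦ B n`. -/
noncomputable def bellFunctional : R[X] →ₗ[R] R :=
  Polynomial.lsum fun n => (Nat.bell n : R) • LinearMap.id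

theorem bellFunctional_X_pow (n : ℕ) : bellFunctional (X ^ n : R[X]) = Nat.bell n := by
  simp [bellFunctional, Polynomial.lsum, Polynomial.X_pow_eq_monomial, sum_monomial_index]

theorem bellFunctional_X_mul (P : R[X]) :
    bellFunctional (X * P) = bellFunctional (P.comp (X + 1)) := by
  induction P using Polynomial.induction_on' with
  | add P Q hP hQ => rw [mul_add, map_add, add_comp, map_add, hP, hQ]
  | monomial n r =>
    rw [← C_mul_X_pow_eq_monomial, mul_left_comm, ← smul_eq_C_mul, map_smul, ← pow_succ',
      bellFunctional_X_pow, mul_comp, C_comp, ← smul_eq_C_mul, pow_comp, X_comp, map_smul, add_pow,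
      map_sum]
    congr 1
    rw [Nat.bell_succ, ← Nat.range_succ_eq_Iic, Nat.cast_sum,
      ← sum_range_reflect (fun i => bellFunctional ((X : R[X]) ^ i * 1 ^ (n - i) *
        (n.choose i : R[X])))]
    refine sum_congr rfl fun i hi => ?_
    have hi' : i ≤ n := Nat.lt_succ_iff.1 (mem_range.1 hi)
    rw [one_pow, mul_one, show n + 1 - 1 - i = n - i by omega, Nat.choose_symm hi',
      mul_comm ((X : R[X]) ^ (n - i)), ← nsmul_eq_mul, map_nsmul, bellFunctional_X_pow,
      nsmul_eq_mul, Nat.cast_mul]

theorem bellFunctional_descending (k : ℕ) : ∀ P : R[X],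
    bellFunctional ((∏ i ∈ range k, (X - C (i : R))) * P) =
      bellFunctional (P.comp (X + C (k : R))) := by
  induction k with
  | zero => simp
  | succ k ih =>
    intro P
    rw [prod_range_succ, mul_assoc, ih, mul_comp, sub_comp, X_comp, C_comp, add_sub_cancel_right,
      bellFunctional_X_mul, comp_assoc, add_comp, X_comp, C_comp, Nat.cast_succ, map_add, map_one]
    congr 2
    ring

theorem touchard (p : ℕ) [Fact p.Prime] (n : ℕ) :
    Nat.bell (n + p) ≡ Nat.bell n + Nat.bell (n + 1) [MOD p] := by
  rw [← ZMod.natCast_eq_natCast_iff, Nat.cast_add]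
  have hprod : ∏ i ∈ range p, (X - C ((i : ℕ) : ZMod p)) = X ^ p - X := by
    have h := FiniteField.roots_X_pow_card_sub_X (ZMod p)
    rw [ZMod.card] at h
    have hcard : Multiset.card (X ^ p - X : (ZMod p)[X]).roots =
        (X ^ p - X : (ZMod p)[X]).natDegree := by
      rw [h, FiniteField.X_pow_card_sub_X_natDegree_eq _ (Fact.out : p.Prime).one_lt]
      exact ZMod.card p
    have hmon : (X ^ p - X : (ZMod p)[X]).Monic :=
      monic_X_pow_sub (degree_X_le.trans_lt (by exact_mod_cast (Fact.out : p.Prime).one_lt))
    conv_rhs => rw [← prod_multiset_X_sub_C_of_monic_of_roots_card_eq hmon hcard, h]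
    refine prod_nbij (fun i => (i : ZMod p)) (fun _ _ => mem_univ _) ?_ ?_ fun _ _ => rfl
    · intro i hi j hj hij
      simp only [coe_range, Set.mem_Iio] at hi hj
      have := congrArg ZMod.val hij
      simpa [ZMod.val_natCast, Nat.mod_eq_of_lt hi, Nat.mod_eq_of_lt hj] using this
    · intro x _
      exact ⟨x.val, by simp [ZMod.val_lt], ZMod.natCast_zmod_val x⟩
  have h := bellFunctional_descending (R := ZMod p) p (X ^ n)
  rw [hprod, ZMod.natCast_self, map_zero, add_zero, comp_X, sub_mul, map_sub, ← pow_add,
    ← pow_succ', bellFunctional_X_pow, bellFunctional_X_pow, bellFunctional_X_pow,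
    sub_eq_iff_eq_add] at h
  rw [add_comm n p, h]

end FA.Touchard
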